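import Fermat.Agent.S22b.Defs

set_option autoImplicit false

namespace Fermat.Agent.S22b

open CongruenceSubgroup
open scoped MatrixGroups

noncomputable section

theorem finite_adjoin_of_lattice {V : Type*} [AddCommGroup V] [Module ℂ V]
    (L : Submodule ℤ (Module.Dual ℂ V)) (hfg : L.FG) (hsep : ∀ v : V, (∀ μ ∈ L, μ v = 0) → v = 0)
    (gens : Set (Module.End ℂ V)) (hstab : ∀ t ∈ gens, ∀ μ ∈ L, μ ∘ₗ t ∈ L) :
    Module.Finite ℤ (Algebra.adjoin ℤ gens) := by
  have hall : ∀ t ∈ Algebra.adjoin ℤ gens, ∀ μ ∈ L, μ ∘ₗ t ∈ L := by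
    intro t ht
    induction ht using Algebra.adjoin_induction with
    | mem x hx => exact hstab x hx
    | algebraMap r =>
      intro μ hμ
      have : μ ∘ₗ (algebraMap ℤ (Module.End ℂ V) r) = r • μ := by
        ext v
        simp
      rw [this]
      exact Submodule.smul_mem _ _ hμ
    | add x y _ _ hx hy =>
      intro μ hμ
      rw [LinearMap.comp_add]
      exact add_mem (hx μ hμ) (hy μ hμ)
    | mul x y _ _ hx hy =>
      intro μ hμ
      have : μ ∘ₗ (x * y) = (μ ∘ₗ x) ∘ₗ y := rfl
      rw [this]
      exact hy _ (hx μ hμ)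
  have : Module.Finite ℤ L := Module.Finite.iff_fg.mpr hfg
  have : IsNoetherian ℤ L := inferInstance
  have : Module.Free ℤ L := by
    have : IsAddTorsionFree (Module.Dual ℂ V) := by
      refine ⟨fun n hn a b hab => ?_⟩
      have h : (n : ℂ) • a = (n : ℂ) • b := by
        simp only [Nat.cast_smul_eq_nsmul]
        exact hab
      exact smul_right_injective _ (Nat.cast_ne_zero.mpr hn) h
    infer_instance
  let Φ : (Algebra.adjoin ℤ gens) →ₗ[ℤ] (L →ₗ[ℤ] L) :=
    { toFun := fun t =>
        { toFun := fun μ => ⟨(μ : Module.Dual ℂ V) ∘ₗ (t : Module.End ℂ V), hall t t.2 μ μ.2⟩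
          map_add' := fun μ ν => by
            apply Subtype.ext
            simp [LinearMap.add_comp]
          map_smul' := fun r μ => by
            apply Subtype.ext
            simp [LinearMap.smul_comp] }
      map_add' := fun s t => by
        ext μ : 2
        simp [LinearMap.comp_add]
      map_smul' := fun r t => by
        ext μ : 2
        simp only [Subalgebra.coe_smul, LinearMap.coe_mk, AddHom.coe_mk, RingHom.id_apply,
          LinearMap.smul_apply, Submodule.coe_smul]
        ext v
        simp }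
  have hinj : Function.Injective Φ := by
    rw [← LinearMap.ker_eq_bot, LinearMap.ker_eq_bot']
    intro t ht
    apply Subtype.ext
    ext v
    apply hsep
    intro μ hμ
    have := congrArg (fun F : L →ₗ[ℤ] L => ((F ⟨μ, hμ⟩ : L) : Module.Dual ℂ V) v) ht
    simpa [Φ] using this
  exact Module.Finite.of_injective Φ hinj

theorem fg_Gamma0 (N : ℕ) [NeZero N] : Group.FG (Gamma0 N) := by
  have : Group.FG SL(2, ℤ) :=
    Group.fg_iff.mpr ⟨{ModularGroup.S, ModularGroup.T}, SpecialLinearGroup.SL2Z_generators,
      by simp⟩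
  exact Subgroup.fg_of_index_ne_zero (Gamma0 N)

end

end Fermat.Agent.S22b
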