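import Fermat.Agent.S22b.Lattice

set_option autoImplicit false

namespace Fermat.Agent.S22b

open UpperHalfPlane Polynomial Filter Topology CongruenceSubgroup Matrix.SpecialLinearGroup
open scoped MatrixGroups ModularForm Manifold
open P2MW.S_ModularForm_heckeT_slash_eq_self_of_mem_Gamma0.ModularForm.HeckeSlashInvariance

noncomputable section

variable {N : ℕ} [NeZero N] {w : ℕ}

theorem isInt_heckeMatrix {p : ℕ} (hp : p ≠ 0) (x : ℕ) :
    ∀ i j, ∃ n : ℤ, (ModularForm.heckeMatrix p x : GL (Fin 2) ℝ) i j = (n : ℝ) := by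
  intro i j
  rw [ModularForm.val_heckeMatrix hp]
  fin_cases i <;> fin_cases j
  · exact ⟨1, by simp⟩
  · exact ⟨x, by simp⟩
  · exact ⟨0, by simp⟩
  · exact ⟨p, by simp⟩

theorem isInt_heckeDiagMatrix {p : ℕ} (hp : p ≠ 0) :
    ∀ i j, ∃ n : ℤ, (ModularForm.heckeDiagMatrix p : GL (Fin 2) ℝ) i j = (n : ℝ) := by
  intro i j
  rw [ModularForm.val_heckeDiagMatrix hp]
  fin_cases i <;> fin_cases j
  · exact ⟨p, by simp⟩
  · exact ⟨0, by simp⟩
  · exact ⟨0, by simp⟩
  · exact ⟨1, by simp⟩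

theorem stable_heckeT {p : ℕ} (hp : p.Prime) (hpN : ¬ p ∣ N) :
    ∀ μ ∈ perLattice N w, μ ∘ₗ (CuspForm.heckeTLin ((w : ℤ) + 2) hp hpN) ∈ perLattice N w := by
  have : Fact p.Prime := ⟨hp⟩
  have : NeZero p := ⟨hp.ne_zero⟩
  refine perLattice_stable (J := OnePoint (ZMod p)) (heckeRep p) ?_ ?_ ?_ ?_ _ ?_
  · intro x
    induction x using OnePoint.rec with
    | infty => exact ModularForm.det_heckeDiagMatrix_pos p
    | coe j => exact ModularForm.det_heckeMatrix_pos p _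
  · intro x
    induction x using OnePoint.rec with
    | infty => exact isInt_heckeDiagMatrix hp.ne_zero
    | coe j => exact isInt_heckeMatrix hp.ne_zero _
  · intro x
    induction x using OnePoint.rec with
    | infty => simp [heckeRep_infty, ModularForm.val_heckeDiagMatrix hp.ne_zero]
    | coe j => simp [heckeRep_coe, ModularForm.val_heckeMatrix hp.ne_zero]
  · intro γ hγ
    have hcN : (N : ℤ) ∣ γ 1 0 :=
      (ZMod.intCast_zmod_eq_zero_iff_dvd _ _).mp (CongruenceSubgroup.Gamma0_mem.mp hγ)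
    refine ⟨MulAction.toPerm (redMatrix p γ), fun x => ?_⟩
    obtain ⟨g', hg', hmul⟩ := heckeRep_mul hpN γ hcN x
    exact ⟨g', CongruenceSubgroup.Gamma0_mem.mpr ((ZMod.intCast_zmod_eq_zero_iff_dvd _ _).mpr hg'),
      hmul⟩
  · intro f
    rw [CuspForm.coe_heckeTLin_apply, heckeT_eq_sum_onePoint]

theorem stable_heckeU {q : ℕ} (hq : q.Prime) (hqN : q ∣ N) :
    ∀ μ ∈ perLattice N w, μ ∘ₗ (CuspForm.heckeULin ((w : ℤ) + 2) hqN) ∈ perLattice N w := by
  have : NeZero q := ⟨hq.ne_zero⟩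
  refine perLattice_stable (J := ZMod q) (fun x => ModularForm.heckeMatrix q x.val) ?_ ?_ ?_ ?_ _ ?_
  · intro x
    exact ModularForm.det_heckeMatrix_pos q _
  · intro x
    exact isInt_heckeMatrix hq.ne_zero _
  · intro x
    simp [ModularForm.val_heckeMatrix hq.ne_zero]
  · intro γ hγ
    have hcN : (N : ℤ) ∣ γ 1 0 :=
      (ZMod.intCast_zmod_eq_zero_iff_dvd _ _).mp (CongruenceSubgroup.Gamma0_mem.mp hγ)
    have hc : (q : ℤ) ∣ γ 1 0 := (Int.natCast_dvd_natCast.mpr hqN).trans hcN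
    refine ⟨affinePerm γ ((ZMod.intCast_zmod_eq_zero_iff_dvd _ _).mpr hc), fun x => ?_⟩
    obtain ⟨g', hg', hmul⟩ := heckeMatrix_mul_of_dvd γ hc x
    refine ⟨g', ?_, hmul⟩
    rw [CongruenceSubgroup.Gamma0_mem, hg']
    push_cast
    rw [CongruenceSubgroup.Gamma0_mem.mp hγ, mul_zero]
  · intro f
    rw [CuspForm.coe_heckeULin_apply, heckeU_eq_sum_zmod]

theorem finite_heckeAlgebra_add_two (N : ℕ) [NeZero N] (w : ℕ) (S : Set ℕ) :
    Module.Finite ℤ (CuspForm.heckeAlgebra N ((w : ℤ) + 2) S) := by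
  refine finite_adjoin_of_lattice (perLattice N w) (perLattice_fg N w) perLattice_sep _ ?_
  rintro t (⟨ℓ, hℓ, hℓN, -, rfl⟩ | ⟨q, hqN, hq, -, rfl⟩)
  · exact stable_heckeT hℓ hℓN
  · exact stable_heckeU hq hqN

theorem finite_heckeAlgebra (N : ℕ) [NeZero N] (k : ℤ) (S : Set ℕ) :
    Module.Finite ℤ (CuspForm.heckeAlgebra N k S) := by
  by_cases hk : k ≤ 1
  · have : Subsingleton (CuspForm (Gamma0 N) k) :=
      ⟨fun f g => by rw [cuspForm_eq_zero_of_weight_le_one N hk f,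
        cuspForm_eq_zero_of_weight_le_one N hk g]⟩
    have : Subsingleton (Module.End ℂ (CuspForm (Gamma0 N) k)) :=
      ⟨fun a b => LinearMap.ext fun x => Subsingleton.elim _ _⟩
    have : Subsingleton (CuspForm.heckeAlgebra N k S) :=
      ⟨fun a b => Subtype.ext (Subsingleton.elim _ _)⟩
    infer_instance
  · obtain ⟨w, rfl⟩ : ∃ w : ℕ, k = (w : ℤ) + 2 := ⟨(k - 2).toNat, by omega⟩
    exact finite_heckeAlgebra_add_two N w S

end

end Fermat.Agent.S22b
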