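import Fermat.Agent.S22b.Defs

set_option autoImplicit false

namespace Fermat.Agent.S22b

open UpperHalfPlane Polynomial Filter Topology
open scoped MatrixGroups ModularForm Manifold

noncomputable section

theorem eq_of_eval_eq {P Q : ℂ[X]} (h : ∀ X : ℍ, P.eval (X : ℂ) = Q.eval (X : ℂ)) : P = Q := by
  apply Polynomial.eq_of_infinite_eval_eq
  refine Set.infinite_of_injective_forall_mem (f := fun n : ℕ => (n : ℂ) + Complex.I) ?_ ?_
  · intro a b hab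
    simpa using hab
  · intro n
    have him : 0 < ((n : ℂ) + Complex.I).im := by simp
    exact h ⟨_, him⟩

theorem natDegree_act_le (w : ℕ) (g : GL (Fin 2) ℝ) (P : ℂ[X]) : (act w g P).natDegree ≤ w := by
  rw [act_apply]
  refine natDegree_sum_le_of_forall_le _ _ fun j hj => ?_
  have hj' : j ≤ w := Nat.lt_succ_iff.mp (Finset.mem_range.mp hj)
  refine (natDegree_C_mul_le _ _).trans ?_
  refine natDegree_mul_le.trans ?_
  have h1 : ((C ((g 0 0 : ℝ) : ℂ) * X + C ((g 0 1 : ℝ) : ℂ)) ^ j).natDegree ≤ j := by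
    refine natDegree_pow_le.trans ?_
    have := natDegree_linear_le (a := ((g 0 0 : ℝ) : ℂ)) (b := ((g 0 1 : ℝ) : ℂ))
    nlinarith
  have h2 : ((C ((g 1 0 : ℝ) : ℂ) * X + C ((g 1 1 : ℝ) : ℂ)) ^ (w - j)).natDegree ≤ w - j := by
    refine natDegree_pow_le.trans ?_
    have := natDegree_linear_le (a := ((g 1 0 : ℝ) : ℂ)) (b := ((g 1 1 : ℝ) : ℂ))
    nlinarith
  omega

theorem eval_act_aux (w : ℕ) (g : GL (Fin 2) ℝ) (P : ℂ[X]) (x : ℂ) :
    (act w g P).eval x = ∑ j ∈ Finset.range (w + 1), P.coeff j *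
      ((((g 0 0 : ℝ) : ℂ) * x + ((g 0 1 : ℝ) : ℂ)) ^ j *
        (((g 1 0 : ℝ) : ℂ) * x + ((g 1 1 : ℝ) : ℂ)) ^ (w - j)) := by
  rw [act_apply, eval_finsetSum]
  simp

theorem eval_act (w : ℕ) (g : GL (Fin 2) ℝ) (hg : 0 < g.det.val) {P : ℂ[X]} (hP : P.natDegree ≤ w)
    (X : ℍ) : (act w g P).eval (X : ℂ) = denom g X ^ w * P.eval ((g • X : ℍ) : ℂ) := by
  rw [eval_act_aux, eval_eq_sum_range' (Nat.lt_succ_of_le hP), Finset.mul_sum,
    coe_smul_of_det_pos hg]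
  refine Finset.sum_congr rfl fun j hj => ?_
  have hj' : j ≤ w := Nat.lt_succ_iff.mp (Finset.mem_range.mp hj)
  have hd : denom g X ≠ 0 := denom_ne_zero g X
  have hw : denom g (X : ℂ) ^ w = denom g (X : ℂ) ^ j * denom g (X : ℂ) ^ (w - j) := by
    rw [← pow_add]; congr 1; omega
  rw [hw, div_pow]
  have hdj : denom g (X : ℂ) ^ j ≠ 0 := pow_ne_zero _ hd
  have e1 : ((g 0 0 : ℝ) : ℂ) * (X : ℂ) + ((g 0 1 : ℝ) : ℂ) = num g X := rfl
  have e2 : ((g 1 0 : ℝ) : ℂ) * (X : ℂ) + ((g 1 1 : ℝ) : ℂ) = denom g X := rfl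
  rw [e1, e2]
  generalize denom g (X : ℂ) ^ j = D at hdj
  field_simp

theorem act_mul (w : ℕ) (g h : GL (Fin 2) ℝ) (hg : 0 < g.det.val) (hh : 0 < h.det.val) {P : ℂ[X]}
    (hP : P.natDegree ≤ w) : act w (g * h) P = act w h (act w g P) := by
  apply eq_of_eval_eq
  intro X
  have hgh : 0 < (g * h).det.val := by
    simp only [map_mul, Units.val_mul]; positivity
  rw [eval_act w _ hgh hP, eval_act w h hh (natDegree_act_le w g P), eval_act w g hg hP, mul_smul,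
    ← mul_assoc, ← mul_pow]
  congr 2
  rw [denom_cocycle g h X.im_ne_zero, coe_smul_of_det_pos hh, mul_comm]

theorem act_one (w : ℕ) {P : ℂ[X]} (hP : P.natDegree ≤ w) : act w 1 P = P := by
  apply eq_of_eval_eq
  intro X
  rw [eval_act w 1 (by simp) hP]
  simp [denom]

theorem coeff_act_int (w : ℕ) (g : GL (Fin 2) ℝ) (hg : ∀ i j, ∃ n : ℤ, g i j = (n : ℝ)) :
    ∃ n : ℕ → ℕ → ℤ, ∀ (P : ℂ[X]) (i : ℕ),
      (act w g P).coeff i = ∑ j ∈ Finset.range (w + 1), (n i j : ℂ) * P.coeff j := by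
  obtain ⟨a, ha⟩ := hg 0 0
  obtain ⟨b, hb⟩ := hg 0 1
  obtain ⟨c, hc⟩ := hg 1 0
  obtain ⟨d, hd⟩ := hg 1 1
  refine ⟨fun i j => (((C a * X + C b) ^ j * (C c * X + C d) ^ (w - j) : ℤ[X])).coeff i, ?_⟩
  intro P i
  rw [act_apply, finsetSum_coeff]
  refine Finset.sum_congr rfl fun j _ => ?_
  rw [coeff_C_mul, mul_comm]
  congr 1
  have : ((C ((g 0 0 : ℝ) : ℂ) * X + C ((g 0 1 : ℝ) : ℂ)) ^ j *
      (C ((g 1 0 : ℝ) : ℂ) * X + C ((g 1 1 : ℝ) : ℂ)) ^ (w - j) : ℂ[X]) =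
      (((C a * X + C b) ^ j * (C c * X + C d) ^ (w - j) : ℤ[X])).map (Int.castRingHom ℂ) := by
    simp [ha, hb, hc, hd]
  rw [this, coeff_map]
  simp

end

end Fermat.Agent.S22b
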