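import Mathlib
import Fermat.Prelude.Def_CuspForm_HeckeAlgebra

/-!
# S22, route B ("soft Eichler–Shimura", dual lattice): basic definitions

`act w g` : weight-`w` right action of `GL₂(ℝ)` on polynomials (meaningful on degree `≤ w`):
`(P | g)(X) = (cX+d)^w P((aX+b)/(cX+d))`.

`IsPrim w f G` : `G : ℍ → ℂ[X]` is a primitive of the polynomial valued form `f(τ) (X-τ)^w dτ`.
`Decays G`     : `G` tends to `0` along every vertical ray.
-/

set_option autoImplicit false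

namespace Fermat.Agent.S22b

open UpperHalfPlane Polynomial Filter Topology
open scoped MatrixGroups ModularForm Manifold

noncomputable section

/-- weight-`w` right action of `GL₂(ℝ)` on polynomials (of degree `≤ w`). -/
def act (w : ℕ) (g : GL (Fin 2) ℝ) : ℂ[X] →ₗ[ℂ] ℂ[X] where
  toFun P := ∑ j ∈ Finset.range (w + 1), C (P.coeff j) *
    ((C ((g 0 0 : ℝ) : ℂ) * X + C ((g 0 1 : ℝ) : ℂ)) ^ j *
      (C ((g 1 0 : ℝ) : ℂ) * X + C ((g 1 1 : ℝ) : ℂ)) ^ (w - j))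
  map_add' P Q := by
    simp only [coeff_add, C_add, add_mul, Finset.sum_add_distrib]
  map_smul' c P := by
    simp only [RingHom.id_apply, Finset.smul_sum, smul_eq_C_mul, coeff_C_mul, C_mul, mul_assoc]

theorem act_apply (w : ℕ) (g : GL (Fin 2) ℝ) (P : ℂ[X]) :
    act w g P = ∑ j ∈ Finset.range (w + 1), C (P.coeff j) *
    ((C ((g 0 0 : ℝ) : ℂ) * X + C ((g 0 1 : ℝ) : ℂ)) ^ j *
      (C ((g 1 0 : ℝ) : ℂ) * X + C ((g 1 1 : ℝ) : ℂ)) ^ (w - j)) := rfl

/-- `G` is a primitive of the `ℂ[X]_{≤ w}`-valued form `f(τ) (X - τ)^w dτ` on `ℍ`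
(tested by evaluating at points `X ∈ ℍ`). -/
structure IsPrim (w : ℕ) (f : ℍ → ℂ) (G : ℍ → ℂ[X]) : Prop where
  deg : ∀ τ, (G τ).natDegree ≤ w
  deriv : ∀ X τ : ℍ, HasDerivAt (fun z : ℂ => (G (ofComplex z)).eval (X : ℂ))
    (f τ * ((X : ℂ) - τ) ^ w) (τ : ℂ)

/-- `G` tends to zero along each vertical ray. -/
def Decays (G : ℍ → ℂ[X]) : Prop :=
  ∀ (X : ℍ) (x : ℝ), Tendsto (fun t : ℝ => (G (ofComplex ((x : ℂ) + t * Complex.I))).eval (X : ℂ))
    atTop (𝓝 0)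

end

end Fermat.Agent.S22b
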