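import Fermat.Agent.S22b.Defs

/-!
# S22, route B, chunk C: existence of the normalised Eichler primitive
-/

set_option autoImplicit false

namespace Fermat.Agent.S22b

open UpperHalfPlane Polynomial Filter Topology Function
open scoped MatrixGroups ModularForm Manifold

noncomputable section

local notation "𝕢" => Periodic.qParam

/-- holomorphic, `h`-periodic functions on `ℍ` vanishing at `i∞`. -/
structure CuspLike (h : ℝ) (φ : ℍ → ℂ) : Prop where
  per : Function.Periodic (φ ∘ ofComplex) (h : ℂ)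
  hol : MDiff φ
  zero : IsZeroAtImInfty φ

theorem hasDerivAt_qParam (h : ℝ) (z : ℂ) :
    HasDerivAt (𝕢 h) (𝕢 h z * (2 * Real.pi * Complex.I / h)) z := by
  simpa only [id_eq, mul_one] using! (((hasDerivAt_id z).const_mul _).div_const _).cexp

theorem qParam_add_period {h : ℝ} (hh : h ≠ 0) (z : ℂ) : 𝕢 h (z + h) = 𝕢 h z := by
  have hh' : (h : ℂ) ≠ 0 := by exact_mod_cast hh
  unfold Periodic.qParam
  rw [show 2 * (Real.pi : ℂ) * Complex.I * (z + h) / h
      = 2 * (Real.pi : ℂ) * Complex.I * z / h + 2 * Real.pi * Complex.I by field_simp]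
  rw [Complex.exp_add, Complex.exp_two_pi_mul_I, mul_one]

theorem CuspLike.exists_prim {h : ℝ} (hh : 0 < h) {φ : ℍ → ℂ} (hφ : CuspLike h φ) :
    ∃ ψ : ℍ → ℂ, CuspLike h ψ ∧ ∀ τ : ℍ, HasDerivAt (ψ ∘ ofComplex) (φ τ) (τ : ℂ) := by
  set G := cuspFunction h φ with hG
  have hGd : DifferentiableOn ℂ G (Metric.ball 0 1) :=
    differentiableOn_cuspFunction_ball hh hφ.per hφ.hol hφ.zero.isBoundedAtImInfty
  have hG0 : G 0 = 0 :=
    Periodic.cuspFunction_zero_of_zero_at_inf hh (hφ.zero.comp tendsto_comap_im_ofComplex)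
  have hgd : DifferentiableOn ℂ (dslope G 0) (Metric.ball 0 1) :=
    (Complex.differentiableOn_dslope (Metric.ball_mem_nhds 0 one_pos)).mpr hGd
  obtain ⟨K, hK0, hK⟩ := hgd.isExactOn_ball.with_val_at 0 0
  have hh' : (h : ℂ) ≠ 0 := by exact_mod_cast hh.ne'
  set c : ℂ := h / (2 * Real.pi * Complex.I) with hc
  have hder : ∀ z : ℂ, 0 < z.im → HasDerivAt (fun z => c * K (𝕢 h z)) (G (𝕢 h z)) z := by
    intro z hz
    have hq : 𝕢 h z ∈ Metric.ball (0 : ℂ) 1 := by
      simpa using Periodic.norm_qParam_lt_one hh hz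
    have h1 := ((hK _ hq).comp z (hasDerivAt_qParam h z)).const_mul c
    refine h1.congr_deriv ?_
    have h2 : G (𝕢 h z) = (𝕢 h z - 0) • dslope G 0 (𝕢 h z) := by
      rw [sub_smul_dslope, hG0, sub_zero]
    rw [h2, hc, sub_zero, smul_eq_mul]
    have := Complex.two_pi_I_ne_zero
    field_simp
  refine ⟨fun τ => c * K (𝕢 h τ), ⟨?_, ?_, ?_⟩, ?_⟩
  · intro w
    by_cases hw : 0 < w.im
    · have hw' : 0 < (w + h).im := by simpa using hw
      simp only [comp_apply, ofComplex_apply_of_im_pos hw, ofComplex_apply_of_im_pos hw']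
      rw [qParam_add_period hh.ne']
    · have hw' : (w + h).im ≤ 0 := by simpa using not_lt.mp hw
      simp only [comp_apply, ofComplex_apply_of_im_nonpos hw',
        ofComplex_apply_of_im_nonpos (not_lt.mp hw)]
  · rw [UpperHalfPlane.mdifferentiable_iff]
    intro z hz
    have h1 : DifferentiableAt ℂ (fun z => c * K (𝕢 h z)) z := (hder z hz).differentiableAt
    refine (h1.congr_of_eventuallyEq ?_).differentiableWithinAt
    filter_upwards [(Complex.continuous_im.isOpen_preimage _ isOpen_Ioi).mem_nhds hz] with y hy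
    simp only [comp_apply, ofComplex_apply_of_im_pos hy]
  · have h1 : Tendsto K (𝓝 0) (𝓝 0) := by
      have := (hK 0 (Metric.mem_ball_self one_pos)).continuousAt.tendsto
      rwa [hK0] at this
    have h2 := (h1.comp (qParam_tendsto_atImInfty hh)).const_mul c
    simpa [IsZeroAtImInfty, ZeroAtFilter] using h2
  · intro τ
    have h1 := hder τ τ.im_pos
    rw [hG, eq_cuspFunction τ hh.ne' hφ.per] at h1
    refine h1.congr_of_eventuallyEq ?_
    filter_upwards [(Complex.continuous_im.isOpen_preimage _ isOpen_Ioi).mem_nhds τ.im_pos] with y hy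
    simp only [comp_apply, ofComplex_apply_of_im_pos hy]

/-- a chain of iterated primitives -/
def Chain (E : ℕ → ℍ → ℂ) : Prop :=
  ∀ (r : ℕ) (τ : ℍ), HasDerivAt (E (r + 1) ∘ ofComplex) (E r τ) (τ : ℂ)

theorem CuspLike.exists_chain {h : ℝ} (hh : 0 < h) {φ : ℍ → ℂ} (hφ : CuspLike h φ) :
    ∃ E : ℕ → ℍ → ℂ, E 0 = φ ∧ (∀ r, CuspLike h (E r)) ∧ Chain E := by
  classical
  let next : {ψ : ℍ → ℂ // CuspLike h ψ} → {ψ : ℍ → ℂ // CuspLike h ψ} :=
    fun ψ => ⟨(ψ.2.exists_prim hh).choose, (ψ.2.exists_prim hh).choose_spec.1⟩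
  refine ⟨fun r => (next^[r] ⟨φ, hφ⟩).1, rfl, fun r => (next^[r] ⟨φ, hφ⟩).2, fun r τ => ?_⟩
  have := ((next^[r] ⟨φ, hφ⟩).2.exists_prim hh).choose_spec.2 τ
  simpa only [Function.iterate_succ_apply'] using this

/-- the polynomial valued primitive built from a chain -/
def GG : ℕ → (ℕ → ℍ → ℂ) → ℍ → ℂ[X]
  | 0, E, τ => C (E 1 τ)
  | m + 1, E, τ => C (E 1 τ) * (X - C (τ : ℂ)) ^ (m + 1) +
      C ((m + 1 : ℕ) : ℂ) * GG m (fun r => E (r + 1)) τ

theorem natDegree_GG_le (m : ℕ) (E : ℕ → ℍ → ℂ) (τ : ℍ) : (GG m E τ).natDegree ≤ m := by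
  induction m generalizing E with
  | zero => simp [GG]
  | succ m ih =>
    rw [GG]
    refine (natDegree_add_le _ _).trans (max_le ?_ ?_)
    · refine (natDegree_C_mul_le _ _).trans ?_
      refine (natDegree_pow_le).trans ?_
      rw [natDegree_X_sub_C, mul_one]
    · exact (natDegree_C_mul_le _ _).trans ((ih _).trans (Nat.le_succ m))

theorem eval_GG_self (m : ℕ) (E : ℕ → ℍ → ℂ) (τ : ℍ) :
    (GG m E τ).eval (τ : ℂ) = (m.factorial : ℂ) * E (m + 1) τ := by
  induction m generalizing E with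
  | zero => simp [GG]
  | succ m ih =>
    rw [GG]
    simp only [eval_add, eval_mul, eval_C, eval_pow, eval_sub, eval_X, sub_self, ih]
    rw [zero_pow (Nat.succ_ne_zero m), Nat.factorial_succ]
    push_cast
    ring

theorem hasDerivAt_coe_ofComplex (τ : ℍ) : HasDerivAt (fun z : ℂ => ((ofComplex z : ℍ) : ℂ)) 1 τ := by
  refine (hasDerivAt_id (τ : ℂ)).congr_of_eventuallyEq ?_
  filter_upwards [(Complex.continuous_im.isOpen_preimage _ isOpen_Ioi).mem_nhds τ.im_pos] with y hy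
  simp only [ofComplex_apply_of_im_pos hy, id_eq]

theorem Chain.shift {E : ℕ → ℍ → ℂ} (hE : Chain E) : Chain (fun r => E (r + 1)) :=
  fun r τ => hE (r + 1) τ

theorem hasDerivAt_GG (m : ℕ) (E : ℕ → ℍ → ℂ) (hE : Chain E) (X₀ : ℂ) (τ : ℍ) :
    HasDerivAt (fun z : ℂ => (GG m E (ofComplex z)).eval X₀) (E 0 τ * (X₀ - τ) ^ m) (τ : ℂ) := by
  induction m generalizing E with
  | zero =>
    simp only [GG, eval_C, pow_zero, mul_one]
    exact hE 0 τ
  | succ m ih =>
    have h1 : HasDerivAt (fun z : ℂ => E 1 (ofComplex z)) (E 0 τ) (τ : ℂ) := hE 0 τ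
    have h2 : HasDerivAt (fun z : ℂ => (X₀ - ((ofComplex z : ℍ) : ℂ)) ^ (m + 1))
        (((m + 1 : ℕ) : ℂ) * (X₀ - ((ofComplex (τ : ℂ) : ℍ) : ℂ)) ^ m * (0 - 1)) (τ : ℂ) := by
      have := ((hasDerivAt_const (τ : ℂ) X₀).fun_sub (hasDerivAt_coe_ofComplex τ)).fun_pow (m + 1)
      simpa only [Nat.add_sub_cancel] using this
    have h3 := (ih (fun r => E (r + 1)) hE.shift).const_mul ((m + 1 : ℕ) : ℂ)
    have h4 := (h1.mul h2).add h3
    simp only [GG, eval_add, eval_mul, eval_C, eval_pow, eval_sub, eval_X]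
    refine h4.congr_deriv ?_
    simp only [ofComplex_apply]
    ring

theorem tendsto_ray (x : ℝ) :
    Tendsto (fun t : ℝ => (x : ℂ) + t * Complex.I) atTop (comap Complex.im atTop) := by
  rw [tendsto_comap_iff]
  have : (Complex.im ∘ fun t : ℝ => (x : ℂ) + t * Complex.I) = id := by
    funext t; simp
  rw [this]
  exact tendsto_id

theorem CuspLike.tendsto_mul_pow {h : ℝ} (hh : 0 < h) {ψ : ℍ → ℂ} (hψ : CuspLike h ψ)
    (X₀ : ℂ) (x : ℝ) (n : ℕ) :
    Tendsto (fun t : ℝ => ψ (ofComplex ((x : ℂ) + t * Complex.I)) *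
      (X₀ - ((ofComplex ((x : ℂ) + t * Complex.I) : ℍ) : ℂ)) ^ n) atTop (𝓝 0) := by
  have hdec := Periodic.exp_decay_of_zero_at_inf hh hψ.per
    (eventually_of_mem (preimage_mem_comap (Ioi_mem_atTop 0))
        (fun z hz ↦ UpperHalfPlane.mdifferentiableAt_iff.mp (hψ.hol ⟨z, hz⟩)))
    (hψ.zero.comp tendsto_comap_im_ofComplex)
  have h1 : (fun t : ℝ => ψ (ofComplex ((x : ℂ) + t * Complex.I))) =O[atTop]
      fun t : ℝ => Real.exp (-(2 * Real.pi / h) * t) := by
    have := hdec.comp_tendsto (tendsto_ray x)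
    refine this.congr_right fun t => ?_
    simp only [comp_apply, Complex.add_im, Complex.ofReal_im, Complex.mul_im, Complex.ofReal_re,
      Complex.I_im, mul_one, Complex.I_re, mul_zero, add_zero, zero_add]
    congr 1
    ring
  have h2 : (fun t : ℝ => X₀ - ((ofComplex ((x : ℂ) + t * Complex.I) : ℍ) : ℂ)) =O[atTop]
      fun t : ℝ => t := by
    have h3 : (fun t : ℝ => X₀ - ((x : ℂ) + t * Complex.I)) =O[atTop] fun t : ℝ => t := by
      have h4 : (fun _ : ℝ => X₀ - (x : ℂ)) =O[atTop] fun t : ℝ => t :=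
        (Asymptotics.isLittleO_const_id_atTop _).isBigO
      have h5 : (fun t : ℝ => (t : ℂ) * Complex.I) =O[atTop] fun t : ℝ => t := by
        refine Asymptotics.IsBigO.of_bound 1 (Eventually.of_forall fun t => ?_)
        simp
      refine (h4.sub h5).congr_left fun t => ?_
      ring
    refine h3.congr' ?_ EventuallyEq.rfl
    filter_upwards [eventually_gt_atTop 0] with t ht
    have : 0 < ((x : ℂ) + t * Complex.I).im := by simpa using ht
    rw [ofComplex_apply_of_im_pos this]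
  have h6 := h1.mul (h2.pow n)
  refine h6.trans_tendsto ?_
  have hb : 0 < 2 * Real.pi / h := by positivity
  have h7 := (isLittleO_pow_exp_pos_mul_atTop n hb).tendsto_div_nhds_zero
  refine h7.congr fun t => ?_
  rw [neg_mul, Real.exp_neg]
  field_simp

theorem decays_GG {h : ℝ} (hh : 0 < h) (m : ℕ) (E : ℕ → ℍ → ℂ) (hE : ∀ r, CuspLike h (E r)) :
    Decays (GG m E) := by
  induction m generalizing E with
  | zero =>
    intro X₀ x
    simpa [GG] using (hE 1).tendsto_mul_pow hh X₀ x 0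
  | succ m ih =>
    intro X₀ x
    have h1 := (hE 1).tendsto_mul_pow hh X₀ x (m + 1)
    have h2 := (ih (fun r => E (r + 1)) (fun r => hE (r + 1)) X₀ x).const_mul ((m + 1 : ℕ) : ℂ)
    have h3 := h1.add h2
    simp only [mul_zero, add_zero] at h3
    simpa only [GG, eval_add, eval_mul, eval_C, eval_pow, eval_sub, eval_X] using h3

theorem eval_derivative_of_prim {φ ψ : ℍ → ℂ} (hder : ∀ τ : ℍ, HasDerivAt (ψ ∘ ofComplex) (φ τ) (τ : ℂ))
    (c : ℂ) (Q : ℂ[X]) (hQ : ∀ τ : ℍ, c * ψ τ = Q.eval (τ : ℂ)) (τ : ℍ) :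
    c * φ τ = (derivative Q).eval (τ : ℂ) := by
  have h1 := (hder τ).const_mul c
  have h2 : HasDerivAt (fun z : ℂ => Q.eval z) ((derivative Q).eval (τ : ℂ)) (τ : ℂ) :=
    Q.hasDerivAt (τ : ℂ)
  refine h1.unique (h2.congr_of_eventuallyEq ?_)
  filter_upwards [(Complex.continuous_im.isOpen_preimage _ isOpen_Ioi).mem_nhds τ.im_pos] with y hy
  simp only [comp_apply, ofComplex_apply_of_im_pos hy]
  exact hQ ⟨y, hy⟩

theorem Chain.eval_iterate_derivative {E : ℕ → ℍ → ℂ} (hE : Chain E) (c : ℂ) (Q : ℂ[X]) (n : ℕ)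
    (hQ : ∀ τ : ℍ, c * E n τ = Q.eval (τ : ℂ)) (r : ℕ) (hr : r ≤ n) (τ : ℍ) :
    c * E (n - r) τ = (derivative^[r] Q).eval (τ : ℂ) := by
  induction r generalizing τ with
  | zero => simpa using hQ τ
  | succ r ih =>
    rw [Function.iterate_succ_apply']
    have h1 : n - r = (n - (r + 1)) + 1 := by omega
    refine eval_derivative_of_prim (ψ := E (n - r)) ?_ c _ (fun τ => ih (by omega) τ) τ
    intro τ
    rw [h1]
    exact hE _ τ

theorem exists_eichler (w : ℕ) (f : ℍ → ℂ) (h : ℝ) (hh : 0 < h)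
    (hper : Function.Periodic (f ∘ ofComplex) h) (hhol : MDiff f) (hzero : IsZeroAtImInfty f) :
    ∃ (G : ℍ → ℂ[X]) (E : ℍ → ℂ), IsPrim w f G ∧ Decays G ∧ (∀ τ : ℍ, (G τ).eval (τ : ℂ) = E τ) ∧
      MDiff E ∧ IsZeroAtImInfty E ∧
      (∀ P : ℂ[X], P.natDegree ≤ w → (∀ τ : ℍ, E τ = P.eval (τ : ℂ)) → f = 0) := by
  obtain ⟨E, hE0, hEc, hE⟩ := CuspLike.exists_chain hh (φ := f) ⟨hper, hhol, hzero⟩
  refine ⟨GG w E, fun τ => (w.factorial : ℂ) * E (w + 1) τ, ⟨natDegree_GG_le w E, fun X₀ τ => ?_⟩,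
    decays_GG hh w E hEc, eval_GG_self w E, ?_, ?_, ?_⟩
  · rw [← hE0]
    exact hasDerivAt_GG w E hE X₀ τ
  · exact (mdifferentiable_const (c := (w.factorial : ℂ))).mul (hEc (w + 1)).hol
  · have := (hEc (w + 1)).zero.const_mul (w.factorial : ℂ)
    simpa [IsZeroAtImInfty, ZeroAtFilter] using this
  · intro P hP hEP
    have h1 := hE.eval_iterate_derivative (w.factorial : ℂ) P (w + 1) hEP (w + 1) le_rfl
    rw [Polynomial.iterate_derivative_eq_zero (Nat.lt_succ_of_le hP)] at h1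
    funext τ
    have h2 := h1 τ
    rw [Nat.sub_self, hE0, eval_zero] at h2
    have h3 : (w.factorial : ℂ) ≠ 0 := by exact_mod_cast w.factorial_ne_zero
    simpa [h3] using h2

end

end Fermat.Agent.S22b
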