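import Fermat.Agent.S22b.Prim
import Fermat.Agent.S22b.Exist
import Fermat.Prelude.Thm_CongruenceSubgroup_one_mem_strictPeriods_Gamma0
import Fermat.Prelude.Thm_Subgroup_IsArithmetic_exists_nat_mem_strictPeriods_conj

set_option autoImplicit false

namespace Fermat.Agent.S22b

open UpperHalfPlane Polynomial Filter Topology CongruenceSubgroup Matrix.SpecialLinearGroup
open scoped MatrixGroups ModularForm Manifold Pointwise

noncomputable section

/-- `exists_eichler` with the extra information that the diagonal function is periodic. -/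
theorem exists_eichler_periodic (w : ℕ) (f : ℍ → ℂ) (h : ℝ) (hh : 0 < h)
    (hper : Function.Periodic (f ∘ ofComplex) h) (hhol : MDiff f) (hzero : IsZeroAtImInfty f) :
    ∃ (G : ℍ → ℂ[X]) (E : ℍ → ℂ), IsPrim w f G ∧ Decays G ∧ (∀ τ : ℍ, (G τ).eval (τ : ℂ) = E τ) ∧
      MDiff E ∧ IsZeroAtImInfty E ∧ Function.Periodic (E ∘ ofComplex) h ∧
      (∀ P : ℂ[X], P.natDegree ≤ w → (∀ τ : ℍ, E τ = P.eval (τ : ℂ)) → f = 0) := by
  obtain ⟨E, hE0, hEc, hE⟩ := CuspLike.exists_chain hh (φ := f) ⟨hper, hhol, hzero⟩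
  refine ⟨GG w E, fun τ => (w.factorial : ℂ) * E (w + 1) τ, ⟨natDegree_GG_le w E, fun X₀ τ => ?_⟩,
    decays_GG hh w E hEc, eval_GG_self w E, ?_, ?_, ?_, ?_⟩
  · rw [← hE0]
    exact hasDerivAt_GG w E hE X₀ τ
  · exact (mdifferentiable_const (c := (w.factorial : ℂ))).mul (hEc (w + 1)).hol
  · have := (hEc (w + 1)).zero.const_mul (w.factorial : ℂ)
    simpa [IsZeroAtImInfty, ZeroAtFilter] using this
  · intro z
    have := (hEc (w + 1)).per z
    simp only [Function.comp_apply] at this ⊢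
    rw [this]
  · intro P hP hEP
    have h1 := hE.eval_iterate_derivative (w.factorial : ℂ) P (w + 1) hEP (w + 1) le_rfl
    rw [Polynomial.iterate_derivative_eq_zero (Nat.lt_succ_of_le hP)] at h1
    funext τ
    have h2 := h1 τ
    rw [Nat.sub_self, hE0, eval_zero] at h2
    have h3 : (w.factorial : ℂ) ≠ 0 := by exact_mod_cast w.factorial_ne_zero
    simpa [h3] using h2

/-- a polynomial which is periodic on `ℍ` is constant on `ℍ`. -/
theorem eval_eq_of_periodic (m : ℂ[X]) (M : ℝ) (hM : 0 < M)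
    (h : ∀ τ : ℍ, m.eval ((τ : ℂ) + M) = m.eval (τ : ℂ)) (τ : ℍ) :
    m.eval (τ : ℂ) = m.eval (I : ℂ) := by
  have hn : ∀ n : ℕ, m.eval ((I : ℂ) + n * M) = m.eval (I : ℂ) := by
    intro n
    induction n with
    | zero => simp
    | succ n ih =>
      have him : 0 < ((I : ℂ) + n * M).im := by simp
      have := h ⟨_, him⟩
      rw [← ih, ← this]
      congr 1
      push_cast
      ring
  have : m = C (m.eval (I : ℂ)) := by
    apply Polynomial.eq_of_infinite_eval_eq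
    refine Set.infinite_of_injective_forall_mem (f := fun n : ℕ => (I : ℂ) + n * M) ?_ ?_
    · intro a b hab
      have hM' : (M : ℂ) ≠ 0 := by exact_mod_cast hM.ne'
      simpa [hM'] using hab
    · intro n
      show m.eval ((I : ℂ) + n * M) = (C (m.eval (I : ℂ))).eval ((I : ℂ) + n * M)
      rw [hn n, eval_C]
  rw [this]
  simp

theorem slash_neg_apply (w : ℕ) (E : ℍ → ℂ) (δ : SL(2, ℤ)) (τ : ℍ) :
    (E ∣[-(w : ℤ)] (mapGL ℝ δ)) τ = denom (mapGL ℝ δ) τ ^ w * E (mapGL ℝ δ • τ) := by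
  have hdet : 0 < (mapGL ℝ δ).det.val := by simp
  rw [ModularForm.slash_apply, UpperHalfPlane.σ, if_pos hdet]
  simp only [ContinuousAlgEquiv.refl_apply, neg_neg, zpow_natCast]
  have : ((mapGL ℝ δ).det.val : ℝ) = 1 := by simp
  rw [this]
  simp [mul_comm]

theorem eq_zero_of_invariant (N : ℕ) [NeZero N] (w : ℕ) (f : CuspForm (Gamma0 N) ((w : ℤ) + 2))
    (G : ℍ → ℂ[X]) (hG : IsPrim w f G) (hdec : Decays G)
    (hinv : ∀ γ ∈ Gamma0 N, ∀ τ : ℍ,
      act w (Matrix.SpecialLinearGroup.mapGL ℝ γ) (G (Matrix.SpecialLinearGroup.mapGL ℝ γ • τ)) = G τ) :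
    f = 0 := by
  have hper : Function.Periodic (⇑f ∘ ofComplex) ((1 : ℝ) : ℂ) :=
    SlashInvariantFormClass.periodic_comp_ofComplex f
      (CongruenceSubgroup.one_mem_strictPeriods_Gamma0 N)
  obtain ⟨G₀, E₀, hG₀, hdec₀, hdiag₀, hE₀hol, -, -, hfin⟩ := exists_eichler_periodic w f 1 one_pos hper
    (CuspFormClass.holo f) (CuspFormClass.zero_at_infty f)
  obtain rfl : G = G₀ := hG.eq_of_decays hG₀ hdec hdec₀
  have hdetpos : ∀ δ : SL(2, ℤ), 0 < (mapGL ℝ δ).det.val := fun δ => by simp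
  -- the diagonal function transforms through `act`
  have hslash : ∀ (δ : SL(2, ℤ)) (τ : ℍ), (E₀ ∣[-(w : ℤ)] (mapGL ℝ δ)) τ =
      (act w (mapGL ℝ δ) (G (mapGL ℝ δ • τ))).eval (τ : ℂ) := by
    intro δ τ
    rw [slash_neg_apply, eval_act w _ (hdetpos δ) (hG.deg _), hdiag₀]
  -- slash invariance
  let F₀ : SlashInvariantForm (Gamma0 N : Subgroup (GL (Fin 2) ℝ)) (-(w : ℤ)) :=
    { toFun := E₀
      slash_action_eq' := by
        rintro _ ⟨γ, hγ, rfl⟩
        funext τ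
        rw [hslash, hinv γ hγ, hdiag₀] }
  obtain ⟨M, hMpos, hM⟩ := Subgroup.IsArithmetic.exists_nat_mem_strictPeriods_conj
    (Gamma0 N : Subgroup (GL (Fin 2) ℝ))
  have hMpos' : (0 : ℝ) < M := by exact_mod_cast hMpos
  have hbdd : ∀ δ : SL(2, ℤ), IsBoundedAtImInfty (E₀ ∣[-(w : ℤ)] (mapGL ℝ δ)) := by
    intro δ
    have hMδ : (M : ℝ) ∈ (ConjAct.toConjAct (mapGL ℝ δ)⁻¹ •
        (Gamma0 N : Subgroup (GL (Fin 2) ℝ))).strictPeriods := by
      have := hM δ⁻¹
      rwa [map_inv] at this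
    have hK := hG.slash (mapGL ℝ δ) (hdetpos δ)
    have hper' : Function.Periodic ((⇑f ∣[(w : ℤ) + 2] (mapGL ℝ δ)) ∘ ofComplex) ((M : ℝ) : ℂ) := by
      have := SlashInvariantFormClass.periodic_comp_ofComplex
        (SlashInvariantForm.translate f (mapGL ℝ δ)) hMδ
      rwa [SlashInvariantForm.coe_translate] at this
    have hhol' : MDiff (⇑f ∣[(w : ℤ) + 2] (mapGL ℝ δ)) :=
      CuspFormClass.holo (CuspForm.translate f (mapGL ℝ δ))
    have hzero' : IsZeroAtImInfty (⇑f ∣[(w : ℤ) + 2] (mapGL ℝ δ)) :=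
      CuspFormClass.zero_at_infty_slash f δ
    obtain ⟨G₁, E₁, hG₁, -, hdiag₁, -, hE₁zero, hE₁per, -⟩ :=
      exists_eichler_periodic w _ (M : ℝ) hMpos' hper' hhol' hzero'
    obtain ⟨m, -, hm⟩ := hK.exists_const hG₁
    have hF : ∀ τ : ℍ, (E₀ ∣[-(w : ℤ)] (mapGL ℝ δ)) τ = E₁ τ + m.eval (τ : ℂ) := by
      intro τ
      rw [hslash, hm, eval_add, hdiag₁]
    have hFper : Function.Periodic ((E₀ ∣[-(w : ℤ)] (mapGL ℝ δ)) ∘ ofComplex) ((M : ℝ) : ℂ) := by
      have := SlashInvariantFormClass.periodic_comp_ofComplex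
        (SlashInvariantForm.translate F₀ (mapGL ℝ δ)) hMδ
      rwa [SlashInvariantForm.coe_translate] at this
    have hmper : ∀ τ : ℍ, m.eval ((τ : ℂ) + (M : ℝ)) = m.eval (τ : ℂ) := by
      intro τ
      have him : 0 < ((τ : ℂ) + (M : ℝ)).im := by simpa using τ.im_pos
      have h1 := hFper τ
      have h2 := hE₁per τ
      simp only [Function.comp_apply, ofComplex_apply, ofComplex_apply_of_im_pos him] at h1 h2
      rw [hF, hF, h2] at h1
      simpa using h1
    have hconst := eval_eq_of_periodic m M hMpos' hmper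
    have : (E₀ ∣[-(w : ℤ)] (mapGL ℝ δ)) = E₁ + Function.const ℍ (m.eval (I : ℂ)) := by
      funext τ
      rw [hF, hconst]
      rfl
    rw [this]
    exact hE₁zero.isBoundedAtImInfty.add (Filter.const_boundedAtFilter _ _)
  -- package as a modular form of weight `-w`
  have key : ∀ (k' : ℤ) (hk' : k' = -(w : ℤ)),
      ∃ F : ModularForm (Gamma0 N : Subgroup (GL (Fin 2) ℝ)) k', ⇑F = E₀ := by
    rintro k' rfl
    refine ⟨{ toSlashInvariantForm := F₀, holo' := hE₀hol, bdd_at_cusps' := ?_ }, rfl⟩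
    intro c hc
    rw [Subgroup.IsArithmetic.isCusp_iff_isCusp_SL2Z] at hc
    exact (OnePoint.isBoundedAt_iff_forall_SL2Z hc).mpr fun γ _ => hbdd γ
  have hf0 : (⇑f : ℍ → ℂ) = 0 := by
    rcases Nat.eq_zero_or_pos w with hw | hw
    · obtain ⟨F, hF⟩ := key 0 (by simp [hw])
      obtain ⟨c, hc⟩ := ModularForm.eq_const_of_weight_zero F
      refine hfin (C c) (by simp) fun τ => ?_
      rw [← hF, hc]
      simp
    · obtain ⟨F, hF⟩ := key (-(w : ℤ)) rfl
      have hF0 := ModularForm.isZero_of_neg_weight (by simpa using hw) F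
      refine hfin 0 (by simp) fun τ => ?_
      rw [← hF, hF0]
      simp
  exact DFunLike.coe_injective hf0

end

end Fermat.Agent.S22b
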