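import Fermat.Agent.S22b.Defs

set_option autoImplicit false

namespace Fermat.Agent.S22b

open UpperHalfPlane CongruenceSubgroup Matrix.SpecialLinearGroup Filter Topology
open scoped MatrixGroups ModularForm

noncomputable section

theorem cuspForm_eq_zero_of_weight_le_one (N : ℕ) [NeZero N] {k : ℤ} (hk : k ≤ 1)
    (f : CuspForm (Gamma0 N) k) : f = 0 := by
  apply CuspForm.toModularFormₗ_injective
  rw [map_zero]
  rcases lt_trichotomy k 0 with h | h | h
  · exact ModularForm.isZero_of_neg_weight h _
  · subst h
    obtain ⟨c, hc⟩ := ModularForm.eq_const_of_weight_zero (CuspForm.toModularFormₗ f)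
    have hz : IsZeroAtImInfty (⇑f) := CuspFormClass.zero_at_infty f
    have hfc : (⇑f : ℍ → ℂ) = Function.const ℍ c := by
      funext z
      exact congrFun hc z
    rw [hfc] at hz
    have hc0 : c = 0 := by
      have h1 : Tendsto (Function.const ℍ c) atImInfty (𝓝 0) := hz
      exact tendsto_nhds_unique tendsto_const_nhds h1
    ext z
    rw [hc, hc0]
    rfl
  · have hk1 : k = 1 := by omega
    subst hk1
    refine ModularForm.eq_zero_of_neg_one_mem ?_ odd_one _
    refine ⟨-1, ?_, ?_⟩
    · simp [Gamma0_mem]
    · ext i j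
      simp

end

end Fermat.Agent.S22b
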