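import Fermat.Agent.S22b.Prim
import Fermat.Agent.S22b.Alg
import Fermat.Agent.S22b.Small
import Fermat.Agent.S22b.Exist
import Fermat.Agent.S22b.Inj
import Fermat.Prelude.Thm_CongruenceSubgroup_one_mem_strictPeriods_Gamma0

set_option autoImplicit false

namespace Fermat.Agent.S22b

open UpperHalfPlane Polynomial Filter Topology CongruenceSubgroup Matrix.SpecialLinearGroup
open scoped MatrixGroups ModularForm Manifold

noncomputable section

variable {N : ℕ} [NeZero N] {w : ℕ}

local notation "V" => CuspForm (Gamma0 N) ((w : ℤ) + 2)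

theorem det_mapGL_pos (γ : SL(2, ℤ)) : 0 < (mapGL ℝ γ).det.val := by
  simp

theorem exists_eichG (f : CuspForm (Gamma0 N) ((w : ℤ) + 2)) :
    ∃ G : ℍ → ℂ[X], IsPrim w f G ∧ Decays G := by
  have hper : Function.Periodic (⇑f ∘ ofComplex) ((1 : ℝ) : ℂ) :=
    SlashInvariantFormClass.periodic_comp_ofComplex f
      (CongruenceSubgroup.one_mem_strictPeriods_Gamma0 N)
  obtain ⟨G, E, h1, h2, -⟩ := exists_eichler w f 1 one_pos hper
    (CuspFormClass.holo f) (CuspFormClass.zero_at_infty f)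
  exact ⟨G, h1, h2⟩

/-- the normalised Eichler primitive of a cusp form. -/
def eichG (f : CuspForm (Gamma0 N) ((w : ℤ) + 2)) : ℍ → ℂ[X] := (exists_eichG f).choose

theorem eichG_isPrim (f : CuspForm (Gamma0 N) ((w : ℤ) + 2)) : IsPrim w f (eichG f) :=
  (exists_eichG f).choose_spec.1

theorem eichG_decays (f : CuspForm (Gamma0 N) ((w : ℤ) + 2)) : Decays (eichG f) :=
  (exists_eichG f).choose_spec.2

theorem eichG_add (f g : CuspForm (Gamma0 N) ((w : ℤ) + 2)) :
    eichG (f + g) = eichG f + eichG g := by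
  refine (eichG_isPrim (f + g)).eq_of_decays ?_ (eichG_decays _)
    ((eichG_decays f).add (eichG_decays g))
  rw [FunLike.coe_add]
  exact (eichG_isPrim f).add (eichG_isPrim g)

theorem eichG_smul (c : ℂ) (f : CuspForm (Gamma0 N) ((w : ℤ) + 2)) :
    eichG (c • f) = c • eichG f := by
  refine (eichG_isPrim (c • f)).eq_of_decays ?_ (eichG_decays _) ((eichG_decays f).smul c)
  rw [FunLike.coe_smul]
  exact (eichG_isPrim f).smul c

/-- the period polynomial of `f` along `γ`. -/
def per (f : CuspForm (Gamma0 N) ((w : ℤ) + 2)) (γ : SL(2, ℤ)) : ℂ[X] :=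
  act w (mapGL ℝ γ) (eichG f (mapGL ℝ γ • I)) - eichG f I

theorem natDegree_per_le (f : CuspForm (Gamma0 N) ((w : ℤ) + 2)) (γ : SL(2, ℤ)) :
    (per f γ).natDegree ≤ w :=
  (natDegree_sub_le_of_le (natDegree_act_le w _ _) ((eichG_isPrim f).deg I)).trans (by simp)

theorem per_spec (f : CuspForm (Gamma0 N) ((w : ℤ) + 2)) {γ : SL(2, ℤ)} (hγ : γ ∈ Gamma0 N) (τ : ℍ) :
    act w (mapGL ℝ γ) (eichG f (mapGL ℝ γ • τ)) = eichG f τ + per f γ := by
  have h1 := (eichG_isPrim f).slash (mapGL ℝ γ) (det_mapGL_pos γ)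
  rw [SlashInvariantFormClass.slash_action_eq f _ (Subgroup.mem_map_of_mem (mapGL ℝ) hγ)] at h1
  obtain ⟨m, -, hm⟩ := h1.exists_const (eichG_isPrim f)
  have hI := hm I
  rw [hm τ, per, hI]
  ring

theorem per_add (f g : CuspForm (Gamma0 N) ((w : ℤ) + 2)) (γ : SL(2, ℤ)) :
    per (f + g) γ = per f γ + per g γ := by
  simp only [per, eichG_add, Pi.add_apply, map_add]
  ring

theorem per_smul (c : ℂ) (f : CuspForm (Gamma0 N) ((w : ℤ) + 2)) (γ : SL(2, ℤ)) :
    per (c • f) γ = c • per f γ := by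
  simp only [per, eichG_smul, Pi.smul_apply, map_smul, smul_sub]

theorem per_mul (f : CuspForm (Gamma0 N) ((w : ℤ) + 2)) {γ₁ γ₂ : SL(2, ℤ)} (h₁ : γ₁ ∈ Gamma0 N)
    (h₂ : γ₂ ∈ Gamma0 N) :
    per f (γ₁ * γ₂) = act w (mapGL ℝ γ₂) (per f γ₁) + per f γ₂ := by
  have e1 := per_spec f (mul_mem h₁ h₂) I
  rw [map_mul, act_mul w _ _ (det_mapGL_pos γ₁) (det_mapGL_pos γ₂) ((eichG_isPrim f).deg _),
    mul_smul, per_spec f h₁, map_add, per_spec f h₂] at e1
  have := add_left_cancel (a := eichG f I) (b := per f γ₂ + act w (mapGL ℝ γ₂) (per f γ₁))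
    (c := per f (γ₁ * γ₂)) (by rw [← e1]; ring)
  rw [← this, add_comm]

theorem per_one (f : CuspForm (Gamma0 N) ((w : ℤ) + 2)) : per f 1 = 0 := by
  simp [per, act_one w ((eichG_isPrim f).deg _)]

theorem per_inv (f : CuspForm (Gamma0 N) ((w : ℤ) + 2)) {γ : SL(2, ℤ)} (h : γ ∈ Gamma0 N) :
    per f γ⁻¹ = - act w (mapGL ℝ γ⁻¹) (per f γ) := by
  have := per_mul f h (inv_mem h)
  rw [mul_inv_cancel, per_one] at this
  exact eq_neg_of_add_eq_zero_right this.symm

/-- period functionals -/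
def perFun (N : ℕ) [NeZero N] (w : ℕ) (γ : SL(2, ℤ)) (i : ℕ) :
    Module.Dual ℂ (CuspForm (Gamma0 N) ((w : ℤ) + 2)) where
  toFun f := (per f γ).coeff i
  map_add' f g := by rw [per_add, coeff_add]
  map_smul' c f := by rw [per_smul, coeff_smul]; rfl

@[simp] theorem perFun_apply (γ : SL(2, ℤ)) (i : ℕ) (f : CuspForm (Gamma0 N) ((w : ℤ) + 2)) :
    perFun N w γ i f = (per f γ).coeff i := rfl

/-- the period lattice -/
def perLattice (N : ℕ) [NeZero N] (w : ℕ) :
    Submodule ℤ (Module.Dual ℂ (CuspForm (Gamma0 N) ((w : ℤ) + 2))) :=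
  Submodule.span ℤ {μ | ∃ γ ∈ Gamma0 N, ∃ i : ℕ, μ = perFun N w γ i}

theorem perFun_mem {γ : SL(2, ℤ)} (hγ : γ ∈ Gamma0 N) (i : ℕ) : perFun N w γ i ∈ perLattice N w :=
  Submodule.subset_span ⟨γ, hγ, i, rfl⟩

theorem isInt_mapGL (γ : SL(2, ℤ)) : ∀ i j, ∃ n : ℤ, (mapGL ℝ γ : GL (Fin 2) ℝ) i j = (n : ℝ) :=
  fun i j => ⟨γ i j, by simp⟩

/-- If all the coefficient functionals of `f ↦ P f` lie in a `ℤ`-submodule, so do those of
`f ↦ act g (P f)` for an integral matrix `g`. -/
theorem coeff_act_mem {W : Type*} [AddCommGroup W] [Module ℂ W]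
    (L : Submodule ℤ (Module.Dual ℂ W)) (g : GL (Fin 2) ℝ)
    (hg : ∀ i j, ∃ n : ℤ, g i j = (n : ℝ)) (μ : ℕ → Module.Dual ℂ W) (hμ : ∀ j, μ j ∈ L)
    (ν : Module.Dual ℂ W) (P : W → ℂ[X]) (hP : ∀ f j, (P f).coeff j = μ j f) (i : ℕ)
    (hν : ∀ f, ν f = (act w g (P f)).coeff i) : ν ∈ L := by
  obtain ⟨n, hn⟩ := coeff_act_int w g hg
  have : ν = ∑ j ∈ Finset.range (w + 1), n i j • μ j := by
    ext f
    rw [hν, hn, LinearMap.sum_apply]
    refine Finset.sum_congr rfl fun j _ => ?_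
    rw [LinearMap.smul_apply, hP, zsmul_eq_mul]
  rw [this]
  exact Submodule.sum_mem _ fun j _ => Submodule.smul_mem _ _ (hμ j)

theorem perLattice_fg (N : ℕ) [NeZero N] (w : ℕ) : (perLattice N w).FG := by
  obtain ⟨S, hS, hfin⟩ := Group.fg_iff.mp (fg_Gamma0 N)
  set T : Set (Module.Dual ℂ (CuspForm (Gamma0 N) ((w : ℤ) + 2))) :=
    (fun p : (Gamma0 N) × ℕ => perFun N w p.1 p.2) '' (S ×ˢ (Finset.range (w + 1) : Set ℕ)) with hT
  have hTfin : T.Finite := (hfin.prod (Finset.finite_toSet _)).image _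
  set L' := Submodule.span ℤ T with hL'
  have key : ∀ γ : Gamma0 N, ∀ i, perFun N w γ i ∈ L' := by
    intro γ
    have hγ : γ ∈ Subgroup.closure S := hS ▸ Subgroup.mem_top γ
    induction hγ using Subgroup.closure_induction with
    | mem x hx =>
      intro i
      by_cases hi : i < w + 1
      · exact Submodule.subset_span ⟨(x, i), ⟨hx, by simpa using hi⟩, rfl⟩
      · have : perFun N w x i = 0 := by
          ext f
          simp only [perFun_apply, LinearMap.zero_apply]
          exact coeff_eq_zero_of_natDegree_lt (lt_of_le_of_lt (natDegree_per_le f x) (by omega))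
        rw [this]; exact zero_mem _
    | one =>
      intro i
      have : perFun N w ((1 : Gamma0 N) : SL(2, ℤ)) i = 0 := by
        ext f
        simp [per_one]
      rw [this]; exact zero_mem _
    | mul x y _ _ hx hy =>
      intro i
      have h1 : perFun N w ((x * y : Gamma0 N) : SL(2, ℤ)) i =
          (perFun N w ((x * y : Gamma0 N) : SL(2, ℤ)) i - perFun N w y i) + perFun N w y i := by abel
      rw [h1]
      refine add_mem ?_ (hy i)
      refine coeff_act_mem (w := w) L' (mapGL ℝ (y : SL(2, ℤ))) (isInt_mapGL _)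
        (fun j => perFun N w x j) hx _ (fun f => per f x) (fun f j => rfl) i ?_
      intro f
      simp only [LinearMap.sub_apply, perFun_apply, Subgroup.coe_mul, per_mul f x.2 y.2, coeff_add,
        add_sub_cancel_right]
    | inv x _ hx =>
      intro i
      have h1 : perFun N w ((x⁻¹ : Gamma0 N) : SL(2, ℤ)) i =
          - (- perFun N w ((x⁻¹ : Gamma0 N) : SL(2, ℤ)) i) := by abel
      rw [h1]
      refine neg_mem ?_
      refine coeff_act_mem (w := w) L' (mapGL ℝ ((x : SL(2, ℤ))⁻¹)) (isInt_mapGL _)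
        (fun j => perFun N w x j) hx _ (fun f => per f x) (fun f j => rfl) i ?_
      intro f
      simp only [LinearMap.neg_apply, perFun_apply, Subgroup.coe_inv, per_inv f x.2, coeff_neg,
        neg_neg]
  have hle : perLattice N w ≤ L' := by
    refine Submodule.span_le.mpr ?_
    rintro μ ⟨γ, hγ, i, rfl⟩
    exact key ⟨γ, hγ⟩ i
  have hge : L' ≤ perLattice N w := by
    refine Submodule.span_le.mpr ?_
    rintro μ ⟨⟨γ, i⟩, -, rfl⟩
    exact perFun_mem γ.2 i
  rw [le_antisymm hle hge]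
  exact Submodule.fg_span hTfin

theorem perLattice_sep (f : CuspForm (Gamma0 N) ((w : ℤ) + 2))
    (h : ∀ μ ∈ perLattice N w, μ f = 0) : f = 0 := by
  refine eq_zero_of_invariant N w f (eichG f) (eichG_isPrim f) (eichG_decays f) ?_
  intro γ hγ τ
  have : per f γ = 0 := by
    ext i
    simpa using h _ (perFun_mem hγ i)
  rw [per_spec f hγ, this, add_zero]

/-- Abstract Hecke stability. -/
theorem perLattice_stable {J : Type*} [Fintype J] (α : J → GL (Fin 2) ℝ)
    (hdet : ∀ j, 0 < (α j).det.val) (hint : ∀ x i j, ∃ n : ℤ, α x i j = (n : ℝ))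
    (hup : ∀ j, α j 1 0 = 0)
    (hperm : ∀ γ ∈ Gamma0 N, ∃ π : Equiv.Perm J, ∀ j, ∃ γ' ∈ Gamma0 N,
      α j * mapGL ℝ γ = mapGL ℝ γ' * α (π j))
    (t : Module.End ℂ (CuspForm (Gamma0 N) ((w : ℤ) + 2)))
    (ht : ∀ f, ⇑(t f) = ∑ j, (⇑f) ∣[(w : ℤ) + 2] α j) :
    ∀ μ ∈ perLattice N w, μ ∘ₗ t ∈ perLattice N w := by
  have hG : ∀ f, eichG (t f) = ∑ j, fun τ => act w (α j) (eichG f (α j • τ)) := by
    intro f
    refine (eichG_isPrim (t f)).eq_of_decays ?_ (eichG_decays _) ?_
    · rw [ht]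
      exact IsPrim.sum _ fun j _ => (eichG_isPrim f).slash (α j) (hdet j)
    · exact Decays.sum _ fun j _ => (eichG_decays f).slash_upper (eichG_isPrim f).deg (α j) (hdet j)
        (hup j)
  intro μ hμ
  induction hμ using Submodule.span_induction with
  | mem μ hμ =>
    obtain ⟨γ, hγ, i, rfl⟩ := hμ
    obtain ⟨π, hπ⟩ := hperm γ hγ
    choose γ' hγ' hmul using hπ
    have hper : ∀ f, per (t f) γ = ∑ j, act w (α (π j)) (per f (γ' j)) := by
      intro f
      rw [per, hG]
      simp only [Finset.sum_apply, map_sum]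
      rw [← Equiv.sum_comp π (fun j => act w (α j) (eichG f (α j • I))), ← Finset.sum_sub_distrib]
      refine Finset.sum_congr rfl fun j _ => ?_
      rw [← act_mul w _ _ (hdet j) (det_mapGL_pos γ) ((eichG_isPrim f).deg _), ← mul_smul, hmul,
        act_mul w _ _ (det_mapGL_pos _) (hdet _) ((eichG_isPrim f).deg _), mul_smul,
        per_spec f (hγ' j), map_add]
      ring
    have : perFun N w γ i ∘ₗ t = ∑ j, ((perFun N w γ i ∘ₗ t) - (perFun N w γ i ∘ₗ t) +
        { toFun := fun f => (act w (α (π j)) (per f (γ' j))).coeff i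
          map_add' := fun f g => by rw [per_add, map_add, coeff_add]
          map_smul' := fun c f => by rw [per_smul, map_smul, coeff_smul]; rfl } :
          Module.Dual ℂ (CuspForm (Gamma0 N) ((w : ℤ) + 2))) := by
      ext f
      simp only [LinearMap.comp_apply, perFun_apply, hper, finsetSum_coeff, sub_self, zero_add,
        LinearMap.sum_apply, LinearMap.coe_mk, AddHom.coe_mk]
    rw [this]
    refine Submodule.sum_mem _ fun j _ => ?_
    rw [sub_self, zero_add]
    exact coeff_act_mem (w := w) _ (α (π j)) (hint _) (fun l => perFun N w (γ' j) l)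
      (fun l => perFun_mem (hγ' j) l) _ (fun f => per f (γ' j)) (fun f l => rfl) i (fun f => rfl)
  | zero => simp
  | add x y _ _ hx hy => rw [LinearMap.add_comp]; exact add_mem hx hy
  | smul a x _ hx => rw [LinearMap.smul_comp]; exact Submodule.smul_mem _ _ hx

end

end Fermat.Agent.S22b
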