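import Fermat.Agent.S22b.Act

set_option autoImplicit false

namespace Fermat.Agent.S22b

open UpperHalfPlane Polynomial Filter Topology
open scoped MatrixGroups ModularForm Manifold

noncomputable section

theorem smul_sub_smul (g : GL (Fin 2) ℝ) (hg : 0 < g.det.val) (X τ : ℍ) :
    ((g • X : ℍ) : ℂ) - ((g • τ : ℍ) : ℂ) =
      (g.det.val : ℂ) * ((X : ℂ) - τ) / (denom g X * denom g τ) := by
  rw [coe_smul_of_det_pos hg, coe_smul_of_det_pos hg]
  have h1 : denom g X ≠ 0 := denom_ne_zero g X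
  have h2 : denom g τ ≠ 0 := denom_ne_zero g τ
  rw [div_sub_div _ _ h1 h2]
  congr 1
  rw [Matrix.GeneralLinearGroup.val_det_apply, Matrix.det_fin_two]
  simp only [num, denom]
  push_cast
  ring

theorem IsPrim.slash {w : ℕ} {f : ℍ → ℂ} {G : ℍ → ℂ[X]} (h : IsPrim w f G) (g : GL (Fin 2) ℝ)
    (hg : 0 < g.det.val) :
    IsPrim w (f ∣[(w : ℤ) + 2] g) (fun τ => act w g (G (g • τ))) := by
  refine ⟨fun τ => natDegree_act_le w g _, fun X τ => ?_⟩
  have hg' : 0 < g.val.det := by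
    rwa [Matrix.GeneralLinearGroup.val_det_apply] at hg
  have h1 := h.deriv (g • X) (g • τ)
  have h2 : HasDerivAt (fun z ↦ ↑(g • ofComplex z) : ℂ → ℂ) (g.val.det / denom g τ ^ 2) τ :=
    (hasStrictDerivAt_smul hg' τ).hasDerivAt
  have h1' : HasDerivAt (fun z : ℂ => (G (ofComplex z)).eval ((g • X : ℍ) : ℂ))
      (f (g • τ) * (((g • X : ℍ) : ℂ) - ((g • τ : ℍ) : ℂ)) ^ w)
      ((fun z ↦ ↑(g • ofComplex z) : ℂ → ℂ) τ) := by
    simpa [ofComplex_apply] using h1
  have h3 := (h1'.comp (τ : ℂ) h2).const_mul (denom g X ^ w)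
  have hfun : (fun z : ℂ => (act w g (G (g • ofComplex z))).eval (X : ℂ)) =
      fun z : ℂ => denom g X ^ w * ((fun z : ℂ => (G (ofComplex z)).eval ((g • X : ℍ) : ℂ)) ∘
        (fun z ↦ ↑(g • ofComplex z) : ℂ → ℂ)) z := by
    funext z
    rw [eval_act w g hg (h.deg _)]
    simp [ofComplex_apply]
  rw [hfun]
  refine h3.congr_deriv ?_
  rw [smul_sub_smul g hg, ModularForm.slash_apply, UpperHalfPlane.σ, if_pos hg]
  have hd1 : denom g X ≠ 0 := denom_ne_zero g X
  have hd2 : denom g τ ≠ 0 := denom_ne_zero g τ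
  have e1 : ((w : ℤ) + 2 - 1) = ((w + 1 : ℕ) : ℤ) := by push_cast; ring
  have e2 : (-((w : ℤ) + 2)) = -((w + 2 : ℕ) : ℤ) := by push_cast; ring
  rw [e1, e2, zpow_natCast, zpow_neg, zpow_natCast, abs_of_pos hg,
    ← Matrix.GeneralLinearGroup.val_det_apply]
  simp only [ContinuousAlgEquiv.refl_apply]
  rw [div_pow, mul_pow, mul_pow]
  field_simp
  ring

theorem preconnected_uhp : IsPreconnected upperHalfPlaneSet :=
  (convex_halfSpace_im_gt 0).isPreconnected

theorem IsPrim.exists_const {w : ℕ} {f : ℍ → ℂ} {G₁ G₂ : ℍ → ℂ[X]} (h₁ : IsPrim w f G₁)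
    (h₂ : IsPrim w f G₂) : ∃ m : ℂ[X], m.natDegree ≤ w ∧ ∀ τ, G₁ τ = G₂ τ + m := by
  refine ⟨G₁ I - G₂ I, (natDegree_sub_le_of_le (h₁.deg I) (h₂.deg I)).trans (by simp), fun τ => ?_⟩
  apply eq_of_eval_eq
  intro X
  have hd : ∀ σ : ℍ, HasDerivAt (fun z : ℂ => (G₁ (ofComplex z)).eval (X : ℂ) -
      (G₂ (ofComplex z)).eval (X : ℂ)) 0 (σ : ℂ) := by
    intro σ
    exact ((h₁.deriv X σ).sub (h₂.deriv X σ)).congr_deriv (sub_self _)
  have := isOpen_upperHalfPlaneSet.is_const_of_deriv_eq_zero preconnected_uhp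
    (f := fun z : ℂ => (G₁ (ofComplex z)).eval (X : ℂ) - (G₂ (ofComplex z)).eval (X : ℂ))
    (fun z hz => (hd ⟨z, hz⟩).differentiableAt.differentiableWithinAt)
    (fun z hz => (hd ⟨z, hz⟩).deriv) τ.im_pos I.im_pos
  simp only [ofComplex_apply] at this
  simp only [eval_add, eval_sub]
  linear_combination this

theorem IsPrim.eq_of_decays {w : ℕ} {f : ℍ → ℂ} {G₁ G₂ : ℍ → ℂ[X]} (h₁ : IsPrim w f G₁)
    (h₂ : IsPrim w f G₂) (d₁ : Decays G₁) (d₂ : Decays G₂) : G₁ = G₂ := by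
  obtain ⟨m, -, hm⟩ := h₁.exists_const h₂
  have hm0 : m = 0 := by
    apply eq_of_eval_eq
    intro X
    have h := (d₁ X 0).sub (d₂ X 0)
    have hc : (fun t : ℝ => (G₁ (ofComplex (((0 : ℝ) : ℂ) + t * Complex.I))).eval (X : ℂ) -
        (G₂ (ofComplex (((0 : ℝ) : ℂ) + t * Complex.I))).eval (X : ℂ)) = fun _ => m.eval (X : ℂ) := by
      funext t
      rw [hm]; simp
    rw [hc, sub_zero] at h
    simpa using tendsto_nhds_unique tendsto_const_nhds h
  funext τ
  rw [hm, hm0, add_zero]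

theorem Decays.slash_upper {w : ℕ} {G : ℍ → ℂ[X]} (hdeg : ∀ τ, (G τ).natDegree ≤ w) (h : Decays G)
    (g : GL (Fin 2) ℝ) (hg : 0 < g.det.val) (hg10 : g 1 0 = 0) :
    Decays (fun τ => act w g (G (g • τ))) := by
  intro X x
  have hdet : g.det.val = g 0 0 * g 1 1 := by
    rw [Matrix.GeneralLinearGroup.val_det_apply, Matrix.det_fin_two, hg10]; ring
  have hd : g 1 1 ≠ 0 := by
    intro h0; rw [hdet, h0, mul_zero] at hg; exact lt_irrefl _ hg
  have hpos : 0 < g 0 0 / g 1 1 := by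
    have : g 0 0 / g 1 1 = g 0 0 * g 1 1 / (g 1 1) ^ 2 := by field_simp
    rw [this, ← hdet]; positivity
  have h1 := (h (g • X) ((g 0 0 * x + g 0 1) / g 1 1)).comp
    (tendsto_id.const_mul_atTop hpos)
  have h2 := h1.const_mul (denom g X ^ w)
  rw [mul_zero] at h2
  refine h2.congr' ?_
  filter_upwards [eventually_gt_atTop 0] with t ht
  simp only [Function.comp, id]
  rw [eval_act w g hg (hdeg _)]
  congr 3
  have him : 0 < ((x : ℂ) + t * Complex.I).im := by simpa using ht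
  have him' : 0 < ((((g 0 0 * x + g 0 1) / g 1 1 : ℝ) : ℂ) +
      ((g 0 0 / g 1 1 * t : ℝ) : ℂ) * Complex.I).im := by
    simp only [Complex.add_im, Complex.ofReal_im, Complex.mul_im, Complex.ofReal_re, Complex.I_im,
      mul_one, Complex.I_re, mul_zero, add_zero, zero_add]
    positivity
  rw [ofComplex_apply_of_im_pos him, ofComplex_apply_of_im_pos him']
  apply UpperHalfPlane.ext
  rw [coe_smul_of_det_pos hg]
  have hdC : ((g 1 1 : ℝ) : ℂ) ≠ 0 := by exact_mod_cast hd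
  simp only [num, denom, hg10, Complex.ofReal_zero, zero_mul, zero_add]
  push_cast
  field_simp
  ring

theorem IsPrim.add {w : ℕ} {f₁ f₂ : ℍ → ℂ} {G₁ G₂ : ℍ → ℂ[X]} (h₁ : IsPrim w f₁ G₁)
    (h₂ : IsPrim w f₂ G₂) : IsPrim w (f₁ + f₂) (G₁ + G₂) := by
  refine ⟨fun τ => natDegree_add_le_of_degree_le (h₁.deg τ) (h₂.deg τ), fun X τ => ?_⟩
  have := (h₁.deriv X τ).add (h₂.deriv X τ)
  simp only [Pi.add_apply, eval_add, add_mul]
  exact this

theorem IsPrim.smul {w : ℕ} {f : ℍ → ℂ} {G : ℍ → ℂ[X]} (h : IsPrim w f G) (c : ℂ) :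
    IsPrim w (c • f) (c • G) := by
  refine ⟨fun τ => (natDegree_smul_le c (G τ)).trans (h.deg τ), fun X τ => ?_⟩
  have := (h.deriv X τ).const_mul c
  simp only [Pi.smul_apply, eval_smul, smul_eq_mul, mul_assoc]
  exact this

theorem IsPrim.zero (w : ℕ) : IsPrim w 0 0 := by
  refine ⟨fun τ => by simp, fun X τ => ?_⟩
  simpa using hasDerivAt_const (τ : ℂ) (0 : ℂ)

theorem IsPrim.sum {ι : Type*} (s : Finset ι) {w : ℕ} {f : ι → ℍ → ℂ} {G : ι → ℍ → ℂ[X]}
    (h : ∀ i ∈ s, IsPrim w (f i) (G i)) : IsPrim w (∑ i ∈ s, f i) (∑ i ∈ s, G i) := by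
  classical
  induction s using Finset.induction_on with
  | empty => simpa using IsPrim.zero w
  | insert a s ha ih =>
    rw [Finset.sum_insert ha, Finset.sum_insert ha]
    exact (h a (Finset.mem_insert_self a s)).add (ih fun i hi => h i (Finset.mem_insert_of_mem hi))

theorem Decays.add {G₁ G₂ : ℍ → ℂ[X]} (h₁ : Decays G₁) (h₂ : Decays G₂) : Decays (G₁ + G₂) := by
  intro X x
  simpa using (h₁ X x).add (h₂ X x)

theorem Decays.smul {G : ℍ → ℂ[X]} (h : Decays G) (c : ℂ) : Decays (c • G) := by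
  intro X x
  simpa using (h X x).const_mul c

theorem Decays.zero : Decays 0 := by
  intro X x
  simp

theorem Decays.sum {ι : Type*} (s : Finset ι) {G : ι → ℍ → ℂ[X]} (h : ∀ i ∈ s, Decays (G i)) :
    Decays (∑ i ∈ s, G i) := by
  classical
  induction s using Finset.induction_on with
  | empty => simpa using Decays.zero
  | insert a s ha ih =>
    rw [Finset.sum_insert ha]
    exact (h a (Finset.mem_insert_self a s)).add (ih fun i hi => h i (Finset.mem_insert_of_mem hi))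

end

end Fermat.Agent.S22b
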